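import Mathlib

/-!
# Additivity of the Euler characteristic of a pair of subspaces

For subspaces `M`, `N ≤ N'` of a vector space `E` with `N' / N` finite dimensional,
`χ(M, N') = χ(M, N) + dim (N' / N)` where `χ(M, N) = dim (M ⊓ N) - dim (E / (M ⊔ N))`.
-/

set_option autoImplicit false

namespace Fermat.Agent.Lib.LatticePair

open Module Submodule

section

variable {K E : Type*} [Field K] [AddCommGroup E] [Module K E]

/-- If a linear map has finite dimensional kernel and range, its domain is finite dimensional and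
the dimensions add up. -/
theorem finite_and_finrank_of_ker_range {E F : Type*} [AddCommGroup E] [Module K E]
    [AddCommGroup F] [Module K F] (f : E →ₗ[K] F) [Module.Finite K (LinearMap.ker f)]
    [Module.Finite K (LinearMap.range f)] :
    Module.Finite K E ∧
      finrank K E = finrank K (LinearMap.range f) + finrank K (LinearMap.ker f) := by
  have hfin : Module.Finite K E := by
    have : Module.Finite K (E ⧸ LinearMap.ker f) :=
      Module.Finite.equiv f.quotKerEquivRange.symm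
    exact Module.Finite.of_submodule_quotient (LinearMap.ker f)
  exact ⟨hfin, (LinearMap.finrank_range_add_finrank_ker f).symm⟩

/-- If a subspace and the quotient by it are finite dimensional, so is the space, and dimensions
add up. -/
theorem finite_and_finrank_of_sub_quot (S : Submodule K E) [Module.Finite K S]
    [Module.Finite K (E ⧸ S)] :
    Module.Finite K E ∧ finrank K E = finrank K (E ⧸ S) + finrank K S := by
  have hfin : Module.Finite K E := Module.Finite.of_submodule_quotient S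
  exact ⟨hfin, (Submodule.finrank_quotient_add_finrank S).symm⟩

variable (M N N' : Submodule K E)

/-- Additivity of the Euler characteristic in the second variable. -/
theorem additivity (hN : N ≤ N') [Module.Finite K (N' ⧸ N.comap N'.subtype)]
    [Module.Finite K ↥(M ⊓ N)] [Module.Finite K (E ⧸ (M ⊔ N'))] :
    Module.Finite K ↥(M ⊓ N') ∧ Module.Finite K (E ⧸ (M ⊔ N)) ∧
      (finrank K ↥(M ⊓ N') : ℤ) - finrank K (E ⧸ (M ⊔ N')) =
        (finrank K ↥(M ⊓ N) : ℤ) - finrank K (E ⧸ (M ⊔ N)) +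
          finrank K (N' ⧸ N.comap N'.subtype) := by
  classical
  -- notation
  set P : Submodule K N' := N.comap N'.subtype with hP
  set φ : N' →ₗ[K] E ⧸ (M ⊔ N) := (M ⊔ N).mkQ ∘ₗ N'.subtype with hφ
  have hPφ : P ≤ LinearMap.ker φ := by
    intro z hz
    rw [LinearMap.mem_ker, hφ, LinearMap.comp_apply, mkQ_apply, Quotient.mk_eq_zero]
    exact mem_sup_right hz
  set θ : (N' ⧸ P) →ₗ[K] E ⧸ (M ⊔ N) := P.liftQ φ hPφ with hθ
  set ψ : ↥(M ⊓ N') →ₗ[K] (N' ⧸ P) := P.mkQ ∘ₗ Submodule.inclusion inf_le_right with hψ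
  -- (c1) kernel of ψ
  have hkerψ : LinearMap.ker ψ = (M ⊓ N).comap (M ⊓ N').subtype := by
    ext z
    rw [LinearMap.mem_ker, hψ, LinearMap.comp_apply, mkQ_apply, Quotient.mk_eq_zero, hP,
      mem_comap, mem_comap]
    constructor
    · intro h
      exact ⟨z.2.1, h⟩
    · intro h
      exact h.2
  have hle : M ⊓ N ≤ M ⊓ N' := inf_le_inf_left _ hN
  have e1 : LinearMap.ker ψ ≃ₗ[K] ↥(M ⊓ N) :=
    (LinearEquiv.ofEq _ _ hkerψ).trans (comapSubtypeEquivOfLe hle)
  have : Module.Finite K (LinearMap.ker ψ) := Module.Finite.equiv e1.symm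
  have : Module.Finite K (LinearMap.range ψ) := inferInstance
  obtain ⟨hfin0, hrk0⟩ := finite_and_finrank_of_ker_range ψ
  -- (c2) range ψ = ker θ
  have hc2 : LinearMap.range ψ = LinearMap.ker θ := by
    ext w
    constructor
    · rintro ⟨z, rfl⟩
      rw [LinearMap.mem_ker, hψ, LinearMap.comp_apply, mkQ_apply, hθ, liftQ_apply, hφ,
        LinearMap.comp_apply, mkQ_apply, Quotient.mk_eq_zero]
      exact mem_sup_left z.2.1
    · intro hw
      obtain ⟨n', rfl⟩ := P.mkQ_surjective w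
      rw [LinearMap.mem_ker, hθ, mkQ_apply, liftQ_apply, hφ, LinearMap.comp_apply, mkQ_apply,
        Quotient.mk_eq_zero] at hw
      obtain ⟨m, hm, n, hn, hmn⟩ := mem_sup.mp hw
      rw [subtype_apply] at hmn
      have hmN' : m ∈ N' := by
        have : m = (n' : E) - n := by rw [← hmn]; simp
        rw [this]
        exact N'.sub_mem n'.2 (hN hn)
      refine ⟨⟨m, hm, hmN'⟩, ?_⟩
      rw [hψ, LinearMap.comp_apply, mkQ_apply, mkQ_apply, Submodule.Quotient.eq, hP, mem_comap]
      have : (N'.subtype (Submodule.inclusion inf_le_right ⟨m, hm, hmN'⟩ - n') : E) = -n := by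
        simp only [map_sub, subtype_apply, coe_inclusion]
        rw [← hmn]; abel
      rw [this]
      exact N.neg_mem hn
  -- (c3) quotient by range θ
  have hrangeθ : LinearMap.range θ = (M ⊔ N').map (M ⊔ N).mkQ := by
    rw [hθ, range_liftQ, hφ, LinearMap.range_comp, range_subtype, Submodule.map_sup]
    have : M.map (M ⊔ N).mkQ = ⊥ := by
      rw [eq_bot_iff]
      rintro _ ⟨m, hm, rfl⟩
      rw [mem_bot, mkQ_apply, Quotient.mk_eq_zero]
      exact mem_sup_left hm
    rw [this, bot_sup_eq]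
  have hle2 : M ⊔ N ≤ M ⊔ N' := sup_le_sup_left hN _
  have e3 : ((E ⧸ (M ⊔ N)) ⧸ LinearMap.range θ) ≃ₗ[K] E ⧸ (M ⊔ N') :=
    (Submodule.quotEquivOfEq _ _ hrangeθ).trans
      (Submodule.quotientQuotientEquivQuotient (M ⊔ N) (M ⊔ N') hle2)
  have : Module.Finite K ((E ⧸ (M ⊔ N)) ⧸ LinearMap.range θ) := Module.Finite.equiv e3.symm
  have : Module.Finite K (LinearMap.range θ) := inferInstance
  obtain ⟨hfin1, hrk1⟩ := finite_and_finrank_of_sub_quot (LinearMap.range θ)
  refine ⟨hfin0, hfin1, ?_⟩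
  have hW := LinearMap.finrank_range_add_finrank_ker θ
  have h1 : finrank K (LinearMap.ker ψ) = finrank K ↥(M ⊓ N) := e1.finrank_eq
  have h2 : finrank K ((E ⧸ (M ⊔ N)) ⧸ LinearMap.range θ) = finrank K (E ⧸ (M ⊔ N')) :=
    e3.finrank_eq
  have h3 : finrank K (LinearMap.range ψ) = finrank K (LinearMap.ker θ) := by rw [hc2]
  rw [hrk0, hrk1, h1, h2, h3, ← hW]
  push_cast
  ring

/-- Additivity of the Euler characteristic in the first variable. -/
theorem additivity' (M M' N : Submodule K E) (hM : M ≤ M')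
    [Module.Finite K (M' ⧸ M.comap M'.subtype)]
    [Module.Finite K ↥(M ⊓ N)] [Module.Finite K (E ⧸ (M' ⊔ N))] :
    Module.Finite K ↥(M' ⊓ N) ∧ Module.Finite K (E ⧸ (M ⊔ N)) ∧
      (finrank K ↥(M' ⊓ N) : ℤ) - finrank K (E ⧸ (M' ⊔ N)) =
        (finrank K ↥(M ⊓ N) : ℤ) - finrank K (E ⧸ (M ⊔ N)) +
          finrank K (M' ⧸ M.comap M'.subtype) := by
  have e1 : ↥(N ⊓ M) ≃ₗ[K] ↥(M ⊓ N) := LinearEquiv.ofEq _ _ (inf_comm _ _)
  have e2 : (E ⧸ (N ⊔ M')) ≃ₗ[K] (E ⧸ (M' ⊔ N)) := Submodule.quotEquivOfEq _ _ (sup_comm _ _)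
  have : Module.Finite K ↥(N ⊓ M) := Module.Finite.equiv e1.symm
  have : Module.Finite K (E ⧸ (N ⊔ M')) := Module.Finite.equiv e2.symm
  obtain ⟨h1, h2, h3⟩ := additivity N M M' hM
  have e3 : ↥(N ⊓ M') ≃ₗ[K] ↥(M' ⊓ N) := LinearEquiv.ofEq _ _ (inf_comm _ _)
  have e4 : (E ⧸ (N ⊔ M)) ≃ₗ[K] (E ⧸ (M ⊔ N)) := Submodule.quotEquivOfEq _ _ (sup_comm _ _)
  refine ⟨Module.Finite.equiv e3, Module.Finite.equiv e4, ?_⟩
  rw [← e1.finrank_eq, ← e2.finrank_eq, ← e3.finrank_eq, ← e4.finrank_eq]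
  exact h3

end

end Fermat.Agent.Lib.LatticePair
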