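import Mathlib

/-!
# Lattice pairs over the projective line: basic data

`P1Datum K Q` axiomatises the rational function field `Q = K(x)` together with the place at
infinity and the polynomial ring, in exactly the form needed for the theory of lattice pairs
(vector bundles on the projective line).
-/

set_option autoImplicit false

open WithZero

namespace Fermat.Agent.Lib.LatticePair

theorem lt_exp_iff_le_exp_pred {y : WithZero (Multiplicative ℤ)} {a : ℤ} :
    y < exp a ↔ y ≤ exp (a - 1) := by
  rcases eq_or_ne y 0 with rfl | hy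
  · simp
  · rw [← log_lt_iff_lt_exp hy, ← log_le_iff_le_exp hy]
    omega

/-- Axiomatic description of `K(x)`: the valuation at infinity `v` (so `v x = exp 1`),
the polynomial ring `R`, residues at infinity and polynomial parts. -/
structure P1Datum (K Q : Type*) [Field K] [Field Q] [Algebra K Q] where
  v : Valuation Q (WithZero (Multiplicative ℤ))
  x : Q
  R : Subalgebra K Q
  v_x : v x = exp (1 : ℤ)
  v_algebraMap : ∀ c : K, c ≠ 0 → v (algebraMap K Q c) = 1
  exists_residue : ∀ q : Q, v q ≤ 1 → ∃ c : K, v (q - algebraMap K Q c) < 1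
  x_mem : x ∈ R
  exists_eq_algebraMap : ∀ r ∈ R, v r ≤ 1 → ∃ c : K, r = algebraMap K Q c
  exists_polyPart : ∀ q : Q, ∃ r ∈ R, v (q - r) < 1

namespace P1Datum

variable {K Q : Type*} [Field K] [Field Q] [Algebra K Q] (D : P1Datum K Q)

theorem x_ne_zero : D.x ≠ 0 := by
  intro h
  have := D.v_x
  rw [h, map_zero] at this
  exact exp_ne_zero this.symm

theorem v_x_zpow (k : ℤ) : D.v (D.x ^ k) = exp k := by
  rw [map_zpow₀, D.v_x, ← exp_zsmul, smul_eq_mul, mul_one]

theorem v_algebraMap_le_one (c : K) : D.v (algebraMap K Q c) ≤ 1 := by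
  rcases eq_or_ne c 0 with rfl | hc
  · simp
  · exact (D.v_algebraMap c hc).le

theorem v_smul (c : K) (q : Q) (hc : c ≠ 0) : D.v (c • q) = D.v q := by
  rw [Algebra.smul_def, map_mul, D.v_algebraMap c hc, one_mul]

theorem v_smul_le (c : K) (q : Q) : D.v (c • q) ≤ D.v q := by
  rcases eq_or_ne c 0 with rfl | hc
  · simp
  · exact (D.v_smul c q hc).le

theorem v_sub_le {a b : Q} {y : WithZero (Multiplicative ℤ)} (ha : D.v a ≤ y) (hb : D.v b ≤ y) :
    D.v (a - b) ≤ y :=
  (D.v.map_sub a b).trans (max_le ha hb)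

theorem v_sub_lt {a b : Q} {y : WithZero (Multiplicative ℤ)} (ha : D.v a < y) (hb : D.v b < y) :
    D.v (a - b) < y :=
  (D.v.map_sub a b).trans_lt (max_lt ha hb)

theorem v_add_lt {a b : Q} {y : WithZero (Multiplicative ℤ)} (ha : D.v a < y) (hb : D.v b < y) :
    D.v (a + b) < y :=
  (D.v.map_add a b).trans_lt (max_lt ha hb)

/-- The local ring at infinity, as a `K`-subalgebra of `Q`. -/
def Rinf : Subalgebra K Q where
  carrier := {q | D.v q ≤ 1}
  mul_mem' := by
    intro a b ha hb
    show D.v (a * b) ≤ 1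
    rw [map_mul]
    exact mul_le_one' ha hb
  one_mem' := by show D.v 1 ≤ 1; simp
  add_mem' := by
    intro a b ha hb
    exact (D.v.map_add a b).trans (max_le ha hb)
  zero_mem' := by show D.v 0 ≤ 1; simp
  algebraMap_mem' := D.v_algebraMap_le_one

theorem mem_Rinf {q : Q} : q ∈ D.Rinf ↔ D.v q ≤ 1 := Iff.rfl

theorem one_le_v_of_mem_R {r : Q} (hr : r ∈ D.R) (h0 : r ≠ 0) : 1 ≤ D.v r := by
  by_contra h
  have h' : D.v r < 1 := not_le.mp h
  obtain ⟨c, rfl⟩ := D.exists_eq_algebraMap r hr h'.le
  have hc : c ≠ 0 := by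
    rintro rfl
    simp at h0
  rw [D.v_algebraMap c hc] at h'
  exact lt_irrefl _ h'

theorem x_pow_mem_R (k : ℕ) : D.x ^ k ∈ D.R := D.R.pow_mem D.x_mem k

theorem eq_of_v_algebraMap_sub_lt {c c' : K}
    (h : D.v (algebraMap K Q c - algebraMap K Q c') < 1) : c = c' := by
  by_contra hne
  have : c - c' ≠ 0 := sub_ne_zero.mpr hne
  rw [← map_sub, D.v_algebraMap _ this] at h
  exact lt_irrefl _ h

/-! ### Residue at infinity -/

open Classical in
/-- The residue at infinity of an element of `Q` (junk value `0` outside `Rinf`). -/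
noncomputable def res (q : Q) : K :=
  if h : D.v q ≤ 1 then (D.exists_residue q h).choose else 0

theorem res_spec {q : Q} (h : D.v q ≤ 1) : D.v (q - algebraMap K Q (D.res q)) < 1 := by
  unfold res
  rw [dif_pos h]
  exact (D.exists_residue q h).choose_spec

theorem res_eq_of_lt {q : Q} {c : K} (h : D.v (q - algebraMap K Q c) < 1) : D.res q = c := by
  have hq : D.v q ≤ 1 := by
    have : q = (q - algebraMap K Q c) + algebraMap K Q c := by ring
    rw [this]
    exact (D.v.map_add _ _).trans (max_le h.le (D.v_algebraMap_le_one c))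
  apply D.eq_of_v_algebraMap_sub_lt
  have h1 := D.res_spec hq
  have : algebraMap K Q (D.res q) - algebraMap K Q c =
      (q - algebraMap K Q c) - (q - algebraMap K Q (D.res q)) := by ring
  rw [this]
  exact D.v_sub_lt h h1

theorem res_eq_zero_iff {q : Q} (h : D.v q ≤ 1) : D.res q = 0 ↔ D.v q < 1 := by
  constructor
  · intro h0
    have := D.res_spec h
    rwa [h0, map_zero, sub_zero] at this
  · intro hlt
    apply D.res_eq_of_lt
    rwa [map_zero, sub_zero]

theorem res_add {q q' : Q} (h : D.v q ≤ 1) (h' : D.v q' ≤ 1) :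
    D.res (q + q') = D.res q + D.res q' := by
  apply D.res_eq_of_lt
  have : q + q' - algebraMap K Q (D.res q + D.res q') =
      (q - algebraMap K Q (D.res q)) + (q' - algebraMap K Q (D.res q')) := by
    rw [map_add]; ring
  rw [this]
  exact D.v_add_lt (D.res_spec h) (D.res_spec h')

theorem res_smul (c : K) {q : Q} (h : D.v q ≤ 1) : D.res (c • q) = c * D.res q := by
  apply D.res_eq_of_lt
  have : c • q - algebraMap K Q (c * D.res q) = c • (q - algebraMap K Q (D.res q)) := by
    rw [map_mul, smul_sub, Algebra.smul_def, Algebra.smul_def]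
  rw [this]
  exact (D.v_smul_le _ _).trans_lt (D.res_spec h)

theorem res_algebraMap (c : K) : D.res (algebraMap K Q c) = c := by
  apply D.res_eq_of_lt
  simp

theorem res_one : D.res (1 : Q) = 1 := by
  have := D.res_algebraMap 1
  rwa [map_one] at this

/-! ### The filtrations by degree -/

/-- Elements of `Q` of degree at most `d` at infinity. -/
def levelInf (d : ℤ) : Submodule K Q where
  carrier := {q | D.v q ≤ exp d}
  add_mem' := by
    intro a b ha hb
    exact (D.v.map_add a b).trans (max_le ha hb)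
  zero_mem' := by show D.v 0 ≤ exp d; simp
  smul_mem' := by
    intro c q hq
    exact (D.v_smul_le c q).trans hq

theorem mem_levelInf {d : ℤ} {q : Q} : q ∈ D.levelInf d ↔ D.v q ≤ exp d := Iff.rfl

theorem levelInf_mono {d d' : ℤ} (h : d ≤ d') : D.levelInf d ≤ D.levelInf d' := by
  intro q hq
  exact (D.mem_levelInf.mp hq).trans (exp_le_exp.mpr h)

theorem x_zpow_mul_mem_levelInf {d e : ℤ} {q : Q} (hq : q ∈ D.levelInf d) :
    D.x ^ e * q ∈ D.levelInf (e + d) := by
  rw [mem_levelInf, map_mul, D.v_x_zpow, exp_add]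
  exact mul_le_mul_right (D.mem_levelInf.mp hq) _

theorem x_zpow_mem_levelInf (d : ℤ) : D.x ^ d ∈ D.levelInf d := by
  rw [mem_levelInf, D.v_x_zpow]

/-- Polynomials of degree at most `d`. -/
def levelFin (d : ℤ) : Submodule K Q := Subalgebra.toSubmodule D.R ⊓ D.levelInf d

theorem mem_levelFin {d : ℤ} {q : Q} : q ∈ D.levelFin d ↔ q ∈ D.R ∧ D.v q ≤ exp d := Iff.rfl

theorem levelFin_mono {d d' : ℤ} (h : d ≤ d') : D.levelFin d ≤ D.levelFin d' :=
  inf_le_inf_left _ (D.levelInf_mono h)

theorem levelFin_eq_bot {d : ℤ} (hd : d < 0) : D.levelFin d = ⊥ := by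
  rw [eq_bot_iff]
  intro q hq
  rw [mem_levelFin] at hq
  by_contra h0
  have h1 := D.one_le_v_of_mem_R hq.1 h0
  have : (1 : WithZero (Multiplicative ℤ)) ≤ exp d := h1.trans hq.2
  rw [← exp_zero, exp_le_exp] at this
  omega

/-- The leading coefficient map in degree `d`. -/
noncomputable def resAt (d : ℤ) : D.levelInf d →ₗ[K] K where
  toFun q := D.res (D.x ^ (-d) * (q : Q))
  map_add' := by
    intro a b
    have ha : D.v (D.x ^ (-d) * (a : Q)) ≤ 1 := by
      have := D.x_zpow_mul_mem_levelInf (e := -d) a.2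
      rwa [neg_add_cancel, mem_levelInf, exp_zero] at this
    have hb : D.v (D.x ^ (-d) * (b : Q)) ≤ 1 := by
      have := D.x_zpow_mul_mem_levelInf (e := -d) b.2
      rwa [neg_add_cancel, mem_levelInf, exp_zero] at this
    simp only [Submodule.coe_add, mul_add]
    exact D.res_add ha hb
  map_smul' := by
    intro c a
    have ha : D.v (D.x ^ (-d) * (a : Q)) ≤ 1 := by
      have := D.x_zpow_mul_mem_levelInf (e := -d) a.2
      rwa [neg_add_cancel, mem_levelInf, exp_zero] at this
    simp only [Submodule.coe_smul, RingHom.id_apply, mul_smul_comm, smul_eq_mul]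
    exact D.res_smul c ha

theorem resAt_apply (d : ℤ) (q : D.levelInf d) : D.resAt d q = D.res (D.x ^ (-d) * (q : Q)) := rfl

theorem resAt_eq_zero_iff (d : ℤ) (q : D.levelInf d) :
    D.resAt d q = 0 ↔ (q : Q) ∈ D.levelInf (d - 1) := by
  have hq : D.v (D.x ^ (-d) * (q : Q)) ≤ 1 := by
    have := D.x_zpow_mul_mem_levelInf (e := -d) q.2
    rwa [neg_add_cancel, mem_levelInf, exp_zero] at this
  rw [resAt_apply, D.res_eq_zero_iff hq, mem_levelInf, ← lt_exp_iff_le_exp_pred, map_mul,
    D.v_x_zpow, exp_neg]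
  rw [inv_mul_lt_iff₀ exp_pos, mul_one]

theorem resAt_x_zpow (d : ℤ) : D.resAt d ⟨D.x ^ d, D.x_zpow_mem_levelInf d⟩ = 1 := by
  rw [resAt_apply]
  simp only
  rw [← zpow_add₀ D.x_ne_zero, neg_add_cancel, zpow_zero, D.res_one]

end P1Datum

end Fermat.Agent.Lib.LatticePair
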