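import Mathlib

set_option autoImplicit false
set_option linter.unusedSectionVars false

namespace Fermat.Agent.Lib.LatticePair.DedekindWeber

open WithZero Submodule Module

/-- Axioms for "a PID-like ring `R` and the valuation ring `O` of a discrete place at infinity"
inside a field `Q`.  Model: `R = K[X]`, `Q = K(X)`, `v = inftyValuation`, `x = X`. -/
structure InftyDatum (R O : Type*) {Q : Type*} [CommRing R] [CommRing O] [Field Q] [Algebra R Q]
    [Algebra O Q] (v : Valuation Q ℤᵐ⁰) (x : Q) : Prop where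
  vx : v x = exp (1 : ℤ)
  mem_O : ∀ q : Q, q ∈ Set.range (algebraMap O Q) ↔ v q ≤ 1
  one_le : ∀ r : R, algebraMap R Q r ≠ 0 → 1 ≤ v (algebraMap R Q r)
  approx : ∀ q : Q, ∃ r : R, v (q - algebraMap R Q r) < 1
  frac : ∀ q : Q, ∃ a r : R, algebraMap R Q a ≠ 0 ∧ q * algebraMap R Q a = algebraMap R Q r

variable {R O Q V : Type*} [CommRing R] [CommRing O] [Field Q] [Algebra R Q] [Algebra O Q]
  [AddCommGroup V] [Module Q V] [Module R V] [Module O V] [IsScalarTower R Q V]
  [IsScalarTower O Q V] {v : Valuation Q ℤᵐ⁰} {x : Q}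

namespace InftyDatum

variable (hD : InftyDatum R O v x)
include hD

theorem x_ne_zero : x ≠ 0 := by
  intro h
  have := hD.vx
  rw [h, map_zero] at this
  exact exp_ne_zero this.symm

theorem v_zpow (k : ℤ) : v (x ^ k) = exp k := by
  rw [map_zpow₀, hD.vx]
  rw [← exp_zsmul]
  simp

theorem smul_mem {N : Submodule O V} {q : Q} (hq : v q ≤ 1) {n : V} (hn : n ∈ N) : q • n ∈ N := by
  obtain ⟨o, rfl⟩ := (hD.mem_O q).2 hq
  rw [algebraMap_smul]
  exact N.smul_mem o hn

theorem v_algebraMap_le (o : O) : v (algebraMap O Q o) ≤ 1 := (hD.mem_O _).1 ⟨o, rfl⟩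

end InftyDatum

/-- `InN N x k w` : the vector `x ^ k • w` lies in `N`. -/
def InN (N : Submodule O V) (x : Q) (k : ℤ) (w : V) : Prop := x ^ k • w ∈ N

section InN

variable (hD : InftyDatum R O v x) {N : Submodule O V}
include hD

theorem InN.mono {k k' : ℤ} {w : V} (h : InN N x k w) (hk : k' ≤ k) : InN N x k' w := by
  unfold InN at *
  have : x ^ k' • w = x ^ (k' - k) • (x ^ k • w) := by
    rw [smul_smul, ← zpow_add₀ hD.x_ne_zero]; congr 2; ring
  rw [this]
  apply hD.smul_mem _ h
  rw [hD.v_zpow, ← exp_zero, exp_le_exp]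
  omega

theorem InN.add {k : ℤ} {w w' : V} (h : InN N x k w) (h' : InN N x k w') : InN N x k (w + w') := by
  unfold InN at *
  rw [smul_add]; exact N.add_mem h h'

theorem InN.sub {k : ℤ} {w w' : V} (h : InN N x k w) (h' : InN N x k w') : InN N x k (w - w') := by
  unfold InN at *
  rw [smul_sub]; exact N.sub_mem h h'

theorem InN.zero (k : ℤ) : InN N x k (0 : V) := by
  unfold InN; rw [smul_zero]; exact N.zero_mem

theorem InN.sum {ι : Type*} (s : Finset ι) {k : ℤ} {w : ι → V} (h : ∀ i ∈ s, InN N x k (w i)) :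
    InN N x k (∑ i ∈ s, w i) := by
  classical
  induction s using Finset.induction_on with
  | empty => simpa using InN.zero hD k
  | insert a s ha ih =>
    rw [Finset.sum_insert ha]
    exact InN.add hD (h a (Finset.mem_insert_self a s))
      (ih fun i hi => h i (Finset.mem_insert_of_mem hi))

theorem inN_smul_iff {q : Q} (hq : q ≠ 0) (k : ℤ) (w : V) :
    InN N x k (q • w) ↔ InN N x (k + log (v q)) w := by
  have hvq : v q ≠ 0 := (Valuation.ne_zero_iff v).2 hq
  set e := log (v q) with he
  have hve : v q = exp e := (exp_log hvq).symm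
  have hx := hD.x_ne_zero
  set u : Q := q * x ^ (-e) with hu
  have hvu : v u = 1 := by
    rw [hu, map_mul, hD.v_zpow, hve, ← exp_add]; simp
  have hu0 : u ≠ 0 := by
    intro h; rw [h, map_zero] at hvu; exact zero_ne_one hvu
  have e1 : x ^ k • q • w = u • (x ^ (k + e) • w) := by
    rw [smul_smul, smul_smul, hu]
    congr 1
    rw [zpow_add₀ hx, zpow_neg]
    field_simp
  unfold InN
  constructor
  · intro h
    have e2 : x ^ (k + e) • w = u⁻¹ • (x ^ k • q • w) := by
      rw [e1, smul_smul, inv_mul_cancel₀ hu0, one_smul]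
    rw [e2]
    apply hD.smul_mem _ h
    rw [map_inv₀, hvu, inv_one]
  · intro h
    rw [e1]
    exact hD.smul_mem hvu.le h

theorem exists_inN (hNspan : span Q (N : Set V) = ⊤) (w : V) : ∃ k, InN N x k w := by
  have hw : w ∈ span Q (N : Set V) := by rw [hNspan]; trivial
  induction hw using Submodule.span_induction with
  | mem n hn => exact ⟨0, by unfold InN; simpa using hn⟩
  | zero => exact ⟨0, InN.zero hD 0⟩
  | add a b _ _ ha hb =>
    obtain ⟨k, hk⟩ := ha
    obtain ⟨l, hl⟩ := hb
    exact ⟨min k l, InN.add hD (hk.mono hD (min_le_left _ _)) (hl.mono hD (min_le_right _ _))⟩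
  | smul q a _ ha =>
    obtain ⟨k, hk⟩ := ha
    by_cases hq : q = 0
    · exact ⟨0, by rw [hq, zero_smul]; exact InN.zero hD 0⟩
    · refine ⟨k - log (v q), ?_⟩
      rw [inN_smul_iff hD hq]
      simpa using hk

end InN


section Bounded

variable (hD : InftyDatum R O v x) {M : Submodule R V} {N : Submodule O V}
  [FiniteDimensional Q V]
include hD

/-- Coordinates of elements of a finitely generated `O`-module are bounded at infinity. -/
theorem exists_bound_coord (hNfg : N.FG) {ι : Type*} [Fintype ι] (e : Basis ι Q V) :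
    ∃ c : ℤ, ∀ n ∈ N, ∀ i, v (e.repr n i) ≤ exp c := by
  classical
  -- a bound for the generators
  have hgen : ∀ S : Finset V, ∃ c : ℤ, ∀ n ∈ S, ∀ i, v (e.repr n i) ≤ exp c := by
    intro S
    induction S using Finset.induction_on with
    | empty => exact ⟨0, by simp⟩
    | insert a S _ ih =>
      obtain ⟨c, hc⟩ := ih
      have : ∃ c' : ℤ, ∀ i, v (e.repr a i) ≤ exp c' := by
        have key : ∀ T : Finset ι, ∃ c' : ℤ, ∀ i ∈ T, v (e.repr a i) ≤ exp c' := by
          intro T
          induction T using Finset.induction_on with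
          | empty => exact ⟨0, by simp⟩
          | insert j T _ ih2 =>
            obtain ⟨c2, hc2⟩ := ih2
            by_cases h0 : v (e.repr a j) = 0
            · refine ⟨c2, fun i hi => ?_⟩
              rcases Finset.mem_insert.1 hi with rfl | hi
              · rw [h0]; exact zero_le
              · exact hc2 i hi
            · refine ⟨max c2 (log (v (e.repr a j))), fun i hi => ?_⟩
              rcases Finset.mem_insert.1 hi with rfl | hi
              · conv_lhs => rw [← exp_log h0]
                rw [exp_le_exp]; exact le_max_right _ _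
              · exact (hc2 i hi).trans (by rw [exp_le_exp]; exact le_max_left _ _)
        obtain ⟨c', hc'⟩ := key Finset.univ
        exact ⟨c', fun i => hc' i (Finset.mem_univ i)⟩
      obtain ⟨c', hc'⟩ := this
      refine ⟨max c c', fun n hn i => ?_⟩
      rcases Finset.mem_insert.1 hn with rfl | hn
      · exact (hc' i).trans (by rw [exp_le_exp]; exact le_max_right _ _)
      · exact (hc n hn i).trans (by rw [exp_le_exp]; exact le_max_left _ _)
  obtain ⟨S, hS⟩ := hNfg
  obtain ⟨c, hc⟩ := hgen S
  refine ⟨c, fun n hn => ?_⟩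
  rw [← hS] at hn
  induction hn using Submodule.span_induction with
  | mem n hn => exact hc n hn
  | zero => intro i; simp
  | add a b _ _ ha hb =>
    intro i
    rw [map_add, Finsupp.add_apply]
    exact (v.map_add _ _).trans (max_le (ha i) (hb i))
  | smul o a _ ha =>
    intro i
    rw [← algebraMap_smul Q o a, map_smul, Finsupp.smul_apply, smul_eq_mul, map_mul]
    calc v (algebraMap O Q o) * v (e.repr a i) ≤ 1 * exp c :=
          mul_le_mul' (hD.v_algebraMap_le o) (ha i)
      _ = exp c := one_mul _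

/-- Coordinates of elements of a finitely generated `R`-module have a common denominator. -/
theorem exists_common_denom (hMfg : M.FG) {ι : Type*} [Fintype ι] (e : Basis ι Q V) :
    ∃ a : R, algebraMap R Q a ≠ 0 ∧
      ∀ m ∈ M, ∀ i, ∃ r : R, e.repr m i * algebraMap R Q a = algebraMap R Q r := by
  classical
  have hgen : ∀ S : Finset V, ∃ a : R, algebraMap R Q a ≠ 0 ∧
      ∀ m ∈ S, ∀ i, ∃ r : R, e.repr m i * algebraMap R Q a = algebraMap R Q r := by
    intro S
    induction S using Finset.induction_on with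
    | empty => exact ⟨1, by simp, by simp⟩
    | insert m₀ S _ ih =>
      obtain ⟨a, ha, hS'⟩ := ih
      have key : ∀ T : Finset ι, ∃ a' : R, algebraMap R Q a' ≠ 0 ∧
          ∀ i ∈ T, ∃ r : R, e.repr m₀ i * algebraMap R Q a' = algebraMap R Q r := by
        intro T
        induction T using Finset.induction_on with
        | empty => exact ⟨1, by simp, by simp⟩
        | insert j T _ ih2 =>
          obtain ⟨a2, ha2, h2⟩ := ih2
          obtain ⟨a3, r3, ha3, h3⟩ := hD.frac (e.repr m₀ j)
          refine ⟨a2 * a3, by rw [map_mul]; exact mul_ne_zero ha2 ha3, fun i hi => ?_⟩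
          rcases Finset.mem_insert.1 hi with rfl | hi
          · exact ⟨a2 * r3, by rw [map_mul, map_mul, ← h3]; ring⟩
          · obtain ⟨r, hr⟩ := h2 i hi
            exact ⟨r * a3, by rw [map_mul, map_mul, ← hr]; ring⟩
      obtain ⟨a', ha', h'⟩ := key Finset.univ
      refine ⟨a * a', by rw [map_mul]; exact mul_ne_zero ha ha', fun m hm i => ?_⟩
      rcases Finset.mem_insert.1 hm with rfl | hm
      · obtain ⟨r, hr⟩ := h' i (Finset.mem_univ i)
        exact ⟨a * r, by rw [map_mul, map_mul, ← hr]; ring⟩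
      · obtain ⟨r, hr⟩ := hS' m hm i
        exact ⟨r * a', by rw [map_mul, map_mul, ← hr]; ring⟩
  obtain ⟨S, hS⟩ := hMfg
  obtain ⟨a, ha, hgen⟩ := hgen S
  refine ⟨a, ha, fun m hm => ?_⟩
  rw [← hS] at hm
  induction hm using Submodule.span_induction with
  | mem n hn => exact hgen n hn
  | zero => intro i; exact ⟨0, by simp⟩
  | add m m' _ _ hm hm' =>
    intro i
    obtain ⟨r, hr⟩ := hm i
    obtain ⟨r', hr'⟩ := hm' i
    exact ⟨r + r', by rw [map_add, Finsupp.add_apply, add_mul, hr, hr', map_add]⟩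
  | smul t m _ hm =>
    intro i
    obtain ⟨r, hr⟩ := hm i
    refine ⟨t * r, ?_⟩
    rw [← algebraMap_smul Q t m, map_smul, Finsupp.smul_apply, smul_eq_mul, mul_assoc, hr, map_mul]

/-- The order at infinity (relative to `N`) of nonzero elements of `M` is bounded above. -/
theorem exists_bound (hMfg : M.FG) (hNfg : N.FG) :
    ∃ B : ℤ, ∀ m ∈ M, m ≠ 0 → ∀ k, InN N x k m → k ≤ B := by
  classical
  let e := Module.finBasis Q V
  obtain ⟨c, hc⟩ := exists_bound_coord hD hNfg e
  obtain ⟨a, ha, hden⟩ := exists_common_denom hD hMfg e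
  have hva : v (algebraMap R Q a) ≠ 0 := (Valuation.ne_zero_iff v).2 ha
  refine ⟨c + log (v (algebraMap R Q a)), fun m hm hm0 k hk => ?_⟩
  -- a nonzero coordinate
  have : ∃ i, e.repr m i ≠ 0 := by
    by_contra h
    simp only [not_exists, not_not] at h
    apply hm0
    apply e.repr.injective
    ext i; simpa using h i
  obtain ⟨i, hi⟩ := this
  obtain ⟨r, hr⟩ := hden m hm i
  have hr0 : algebraMap R Q r ≠ 0 := by rw [← hr]; exact mul_ne_zero hi ha
  have h1 : 1 ≤ v (e.repr m i) * v (algebraMap R Q a) := by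
    rw [← map_mul, hr]; exact hD.one_le r hr0
  have h2 : v (x ^ k * e.repr m i) ≤ exp c := by
    have := hc _ hk i
    rwa [map_smul, Finsupp.smul_apply, smul_eq_mul] at this
  rw [map_mul, hD.v_zpow] at h2
  -- combine
  have h3 : exp k ≤ exp c * v (algebraMap R Q a) := by
    calc exp k = exp k * 1 := (mul_one _).symm
      _ ≤ exp k * (v (e.repr m i) * v (algebraMap R Q a)) := mul_le_mul' le_rfl h1
      _ = (exp k * v (e.repr m i)) * v (algebraMap R Q a) := (mul_assoc _ _ _).symm
      _ ≤ exp c * v (algebraMap R Q a) := mul_le_mul' h2 le_rfl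
  rw [← exp_log hva, ← exp_add, exp_le_exp] at h3
  exact h3

end Bounded


section Greedy

variable (hD : InftyDatum R O v x) {M : Submodule R V} {N : Submodule O V}
  [FiniteDimensional Q V]
include hD

theorem exists_maximizer (hMfg : M.FG) (hNfg : N.FG) (hMspan : span Q (M : Set V) = ⊤)
    (hNspan : span Q (N : Set V) = ⊤) (W : Submodule Q V) (hW : W ≠ ⊤) :
    ∃ b ∈ M, b ∉ W ∧ ∀ m ∈ M, m ∉ W → ∀ k, InN N x k m → InN N x k b := by
  obtain ⟨B, hB⟩ := exists_bound hD hMfg hNfg
  have h1 : ∃ m ∈ M, m ∉ W := by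
    by_contra h
    simp only [not_exists, not_and, not_not] at h
    apply hW
    rw [eq_top_iff, ← hMspan]
    exact span_le.2 (fun m hm => h m hm)
  obtain ⟨m₁, hm₁, hm₁W⟩ := h1
  obtain ⟨k₁, hk₁⟩ := exists_inN hD hNspan m₁
  have hP : ∃ k₀, (∃ m ∈ M, m ∉ W ∧ InN N x k₀ m) ∧
      ∀ k, (∃ m ∈ M, m ∉ W ∧ InN N x k m) → k ≤ k₀ := by
    apply Int.exists_greatest_of_bdd
    · refine ⟨B, fun k ⟨m, hm, hmW, hk⟩ => hB m hm ?_ k hk⟩
      rintro rfl; exact hmW W.zero_mem
    · exact ⟨k₁, m₁, hm₁, hm₁W, hk₁⟩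
  obtain ⟨k₀, ⟨b, hb, hbW, hbk⟩, hmax⟩ := hP
  refine ⟨b, hb, hbW, fun m hm hmW k hk => ?_⟩
  exact hbk.mono hD (hmax k ⟨m, hm, hmW, hk⟩)

theorem image_Iio_eq_range (b : ℕ → V) (j : ℕ) :
    b '' Set.Iio j = Set.range (fun i : Fin j => b i) := by
  ext w
  constructor
  · rintro ⟨l, hl, rfl⟩
    exact ⟨⟨l, hl⟩, rfl⟩
  · rintro ⟨i, rfl⟩
    exact ⟨i, i.2, rfl⟩

theorem exists_greedy (hMfg : M.FG) (hNfg : N.FG) (hMspan : span Q (M : Set V) = ⊤)
    (hNspan : span Q (N : Set V) = ⊤) :
    ∀ j ≤ finrank Q V, ∃ b : ℕ → V, (∀ i < j, b i ∈ M) ∧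
      LinearIndependent Q (fun i : Fin j => b i) ∧
      ∀ i < j, ∀ m ∈ M, m ∉ span Q (b '' Set.Iio i) → ∀ k, InN N x k m → InN N x k (b i) := by
  classical
  intro j
  induction j with
  | zero =>
    intro _
    exact ⟨fun _ => 0, by simp, linearIndependent_empty_type, by simp⟩
  | succ j ih =>
    intro hj
    obtain ⟨b, hbM, hbli, hbmax⟩ := ih (by omega)
    set W : Submodule Q V := span Q (b '' Set.Iio j) with hWdef
    have hWne : W ≠ ⊤ := by
      intro h
      have h1 : finrank Q W = j := by
        rw [hWdef, image_Iio_eq_range hD]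
        rw [finrank_span_eq_card hbli]; simp
      rw [h, finrank_top] at h1
      omega
    obtain ⟨c, hcM, hcW, hcmax⟩ := exists_maximizer hD hMfg hNfg hMspan hNspan W hWne
    have hupd : ∀ l, l < j → Function.update b j c l = b l := fun l hl =>
      Function.update_of_ne (by omega) _ _
    have himg : ∀ i, i ≤ j → Function.update b j c '' Set.Iio i = b '' Set.Iio i := by
      intro i hi
      apply Set.image_congr
      intro l hl
      exact hupd l (lt_of_lt_of_le hl hi)
    refine ⟨Function.update b j c, ?_, ?_, ?_⟩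
    · intro i hi
      rcases Nat.lt_succ_iff_lt_or_eq.1 hi with h | rfl
      · rw [hupd i h]; exact hbM i h
      · rw [Function.update_self]; exact hcM
    · have : (fun i : Fin (j + 1) => Function.update b j c i) =
          Fin.snoc (fun i : Fin j => b i) c := by
        funext i
        refine Fin.lastCases ?_ (fun i => ?_) i
        · simp
        · simp only [Fin.snoc_castSucc, Fin.val_castSucc]
          exact hupd i i.2
      rw [this, linearIndependent_finSnoc]
      refine ⟨hbli, ?_⟩
      rw [← image_Iio_eq_range hD]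
      exact hcW
    · intro i hi m hm hmW k hk
      rw [himg i (Nat.lt_succ_iff.1 hi)] at hmW
      rcases Nat.lt_succ_iff_lt_or_eq.1 hi with h | rfl
      · rw [hupd i h]; exact hbmax i h m hm hmW k hk
      · rw [Function.update_self]; exact hcmax m hm hmW k hk

end Greedy


section Main

variable (hD : InftyDatum R O v x) {M : Submodule R V} {N : Submodule O V}
  [FiniteDimensional Q V] {n : ℕ}

/-- A basis obtained by the greedy procedure ("successive maxima at infinity"). -/
structure IsGreedyBasis (M : Submodule R V) (N : Submodule O V) (x : Q)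
    (bb : Basis (Fin n) Q V) : Prop where
  mem : ∀ i, bb i ∈ M
  max : ∀ i, ∀ m ∈ M, m ∉ span Q (bb '' {l | l < i}) → ∀ k, InN N x k m → InN N x k (bb i)

include hD

theorem exists_greedyBasis (hMfg : M.FG) (hNfg : N.FG) (hMspan : span Q (M : Set V) = ⊤)
    (hNspan : span Q (N : Set V) = ⊤) :
    ∃ bb : Basis (Fin (finrank Q V)) Q V, IsGreedyBasis M N x bb := by
  obtain ⟨b, hbM, hbli, hbmax⟩ :=
    exists_greedy hD hMfg hNfg hMspan hNspan (finrank Q V) le_rfl
  have hsp : ⊤ ≤ span Q (Set.range fun i : Fin (finrank Q V) => b i) :=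
    (hbli.span_eq_top_of_card_eq_finrank' (by simp)).ge
  refine ⟨Basis.mk hbli hsp, ⟨?_, ?_⟩⟩
  · intro i
    rw [Basis.coe_mk]
    exact hbM i i.2
  · intro i m hm hmW k hk
    rw [Basis.coe_mk] at hmW ⊢
    have hset : b '' Set.Iio (i : ℕ) =
        (fun l : Fin (finrank Q V) => b l) '' {l | l < i} := by
      ext w
      constructor
      · rintro ⟨l, hl, rfl⟩
        exact ⟨⟨l, lt_trans hl i.2⟩, hl, rfl⟩
      · rintro ⟨l, hl, rfl⟩
        exact ⟨l, hl, rfl⟩
    apply hbmax i i.2 m hm _ k hk
    rw [hset]; exact hmW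

variable {bb : Basis (Fin n) Q V}

theorem exists_level (hMfg : M.FG) (hNfg : N.FG) (hNspan : span Q (N : Set V) = ⊤)
    (hbb : IsGreedyBasis M N x bb) (i : Fin n) :
    ∃ d : ℤ, ∀ k, InN N x k (bb i) ↔ k ≤ d := by
  obtain ⟨B, hB⟩ := exists_bound hD hMfg hNfg
  obtain ⟨k₁, hk₁⟩ := exists_inN hD hNspan (bb i)
  obtain ⟨d, hd, hmax⟩ := Int.exists_greatest_of_bdd (P := fun k => InN N x k (bb i))
    ⟨B, fun k hk => hB _ (hbb.mem i) (bb.ne_zero i) k hk⟩ ⟨k₁, hk₁⟩
  exact ⟨d, fun k => ⟨hmax k, fun hk => hd.mono hD hk⟩⟩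

theorem level_antitone (hbb : IsGreedyBasis M N x bb) {d : Fin n → ℤ}
    (hd : ∀ i k, InN N x k (bb i) ↔ k ≤ d i) {i j : Fin n} (hij : i ≤ j) : d j ≤ d i := by
  rcases hij.lt_or_eq with h | rfl
  · have h1 : bb j ∉ span Q (bb '' {l | l < i}) := by
      apply bb.linearIndependent.notMem_span_image
      intro hji
      exact absurd (show j < i from hji) (not_lt.2 h.le)
    have h2 := hbb.max i (bb j) (hbb.mem j) h1 (d j) ((hd j (d j)).2 le_rfl)
    exact (hd i (d j)).1 h2
  · exact le_rfl

theorem inN_smul_basis {d : Fin n → ℤ} (hd : ∀ i k, InN N x k (bb i) ↔ k ≤ d i)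
    {q : Q} (hq : q ≠ 0) (i : Fin n) (k : ℤ) :
    InN N x k (q • bb i) ↔ k + log (v q) ≤ d i := by
  rw [inN_smul_iff hD hq, hd]

theorem log_lt_zero_of_lt_one {q : Q} (hq : q ≠ 0) (h : v q < 1) : log (v q) ≤ -1 := by
  have hvq : v q ≠ 0 := (Valuation.ne_zero_iff v).2 hq
  rw [← exp_log hvq, ← exp_zero, exp_lt_exp] at h
  omega

/-- Key lemma: a greedy basis is *reduced*: a combination lies in `x ^ (-t) N` only if each
of its terms does. -/
theorem key (hbb : IsGreedyBasis M N x bb) {d : Fin n → ℤ}
    (hd : ∀ i k, InN N x k (bb i) ↔ k ≤ d i) (a : Fin n → Q) (t : ℤ)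
    (h : InN N x t (∑ i, a i • bb i)) : ∀ i, InN N x t (a i • bb i) := by
  classical
  by_contra hcon
  simp only [not_forall] at hcon
  obtain ⟨i₁, hi₁⟩ := hcon
  have hi₁0 : a i₁ ≠ 0 := by
    intro h0; apply hi₁; rw [h0, zero_smul]; exact InN.zero hD t
  set μ : Fin n → ℤ := fun i => d i - log (v (a i)) with hμ
  have hμi : ∀ i, μ i = d i - log (v (a i)) := fun i => rfl
  have hterm : ∀ i, a i ≠ 0 → ∀ k, (InN N x k (a i • bb i) ↔ k ≤ μ i) := by
    intro i hi k
    rw [inN_smul_basis hD hd hi, hμi]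
    constructor <;> intro h <;> omega
  set S : Finset (Fin n) := Finset.univ.filter (fun i => a i ≠ 0) with hS
  have hSne : S.Nonempty := ⟨i₁, by simp [hS, hi₁0]⟩
  obtain ⟨i₀, hi₀S, hi₀min⟩ := Finset.exists_min_image S μ hSne
  set μ₀ := μ i₀ with hμ₀
  have hμ₀t : μ₀ + 1 ≤ t := by
    have h1 : ¬ t ≤ μ i₁ := fun hle => hi₁ ((hterm i₁ hi₁0 t).2 hle)
    have h2 : μ₀ ≤ μ i₁ := hi₀min i₁ (by simp [hS, hi₁0])
    omega
  set I : Finset (Fin n) := S.filter (fun i => μ i = μ₀) with hI
  have hi₀I : i₀ ∈ I := Finset.mem_filter.2 ⟨hi₀S, rfl⟩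
  have hIne : I.Nonempty := ⟨i₀, hi₀I⟩
  set k := I.max' hIne with hk
  have hkI : k ∈ I := Finset.max'_mem I hIne
  have hkS : k ∈ S := (Finset.mem_filter.1 hkI).1
  have hak : a k ≠ 0 := (Finset.mem_filter.1 hkS).2
  have hμk : μ k = μ₀ := (Finset.mem_filter.1 hkI).2
  -- the part of the sum over `I`
  have hw' : InN N x (μ₀ + 1) (∑ i ∈ I, a i • bb i) := by
    have hw : InN N x (μ₀ + 1) (∑ i, a i • bb i) := h.mono hD hμ₀t
    have hsplit : ∑ i ∈ I, a i • bb i =
        (∑ i, a i • bb i) - ∑ i ∈ Finset.univ \ I, a i • bb i := by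
      rw [eq_sub_iff_add_eq, add_comm]
      exact Finset.sum_sdiff (Finset.subset_univ I)
    rw [hsplit]
    apply InN.sub hD hw
    apply InN.sum hD
    intro i hi
    by_cases hai : a i = 0
    · rw [hai, zero_smul]; exact InN.zero hD _
    · rw [hterm i hai]
      have hiS : i ∈ S := by simp [hS, hai]
      have hiI : i ∉ I := (Finset.mem_sdiff.1 hi).2
      have h1 : μ₀ ≤ μ i := hi₀min i hiS
      have h2 : μ i ≠ μ₀ := fun he => hiI (Finset.mem_filter.2 ⟨hiS, he⟩)
      omega
  -- divide by `a k`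
  set e := log (v (a k)) with he
  have hdk : d k - e = μ₀ := hμk
  have hu' : InN N x (d k + 1) ((a k)⁻¹ • ∑ i ∈ I, a i • bb i) := by
    rw [inN_smul_iff hD (inv_ne_zero hak), map_inv₀]
    have : log ((v (a k))⁻¹) = - e := by
      rw [he]
      have hvak : v (a k) ≠ 0 := (Valuation.ne_zero_iff v).2 hak
      rw [← exp_log hvak, ← exp_neg, log_exp, log_exp]
    rw [this]
    have : d k + 1 + -e = μ₀ + 1 := by omega
    rw [this]; exact hw'
  -- approximate the coefficients
  choose r hr using fun i => hD.approx ((a k)⁻¹ * a i)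
  set u : V := bb k + ∑ i ∈ I.erase k, r i • bb i with hu
  have huM : u ∈ M := by
    apply M.add_mem (hbb.mem k)
    apply M.sum_mem
    intro i _
    exact M.smul_mem _ (hbb.mem i)
  have hlt : ∀ i ∈ I.erase k, i < k := by
    intro i hi
    have h1 : i ≤ k := Finset.le_max' I i (Finset.mem_of_mem_erase hi)
    exact lt_of_le_of_ne h1 (Finset.ne_of_mem_erase hi)
  have hdiff : (a k)⁻¹ • ∑ i ∈ I, a i • bb i - u =
      ∑ i ∈ I.erase k, ((a k)⁻¹ * a i - algebraMap R Q (r i)) • bb i := by
    rw [← Finset.add_sum_erase I _ hkI, smul_add, smul_smul, inv_mul_cancel₀ hak, one_smul, hu,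
      Finset.smul_sum, add_sub_add_left_eq_sub, ← Finset.sum_sub_distrib]
    apply Finset.sum_congr rfl
    intro i _
    rw [sub_smul, smul_smul, algebraMap_smul]
  have huN : InN N x (d k + 1) u := by
    have : u = (a k)⁻¹ • ∑ i ∈ I, a i • bb i - ((a k)⁻¹ • ∑ i ∈ I, a i • bb i - u) := by abel
    rw [this]
    apply InN.sub hD hu'
    rw [hdiff]
    apply InN.sum hD
    intro i hi
    by_cases hs : (a k)⁻¹ * a i - algebraMap R Q (r i) = 0
    · rw [hs, zero_smul]; exact InN.zero hD _
    · rw [inN_smul_basis hD hd hs]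
      have h1 := log_lt_zero_of_lt_one hD hs (hr i)
      have h2 : d k ≤ d i := level_antitone hD hbb hd (hlt i hi).le
      omega
  have huW : u ∉ span Q (bb '' {l | l < k}) := by
    intro hmem
    have h1 : ∑ i ∈ I.erase k, r i • bb i ∈ span Q (bb '' {l | l < k}) := by
      apply Submodule.sum_mem
      intro i hi
      rw [← algebraMap_smul Q (r i) (bb i)]
      apply Submodule.smul_mem
      exact subset_span ⟨i, hlt i hi, rfl⟩
    have h2 : bb k ∈ span Q (bb '' {l | l < k}) := by
      have : bb k = u - ∑ i ∈ I.erase k, r i • bb i := by rw [hu]; abel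
      rw [this]; exact Submodule.sub_mem _ hmem h1
    exact bb.linearIndependent.notMem_span_image (by simp) h2
  have := hbb.max k u huM huW (d k + 1) huN
  rw [hd] at this
  omega


theorem N_eq (hbb : IsGreedyBasis M N x bb) {d : Fin n → ℤ}
    (hd : ∀ i k, InN N x k (bb i) ↔ k ≤ d i) :
    N = span O (Set.range fun i => x ^ d i • bb i) := by
  apply le_antisymm
  · intro w hw
    have h0 : InN N x 0 (∑ i, bb.repr w i • bb i) := by
      rw [bb.sum_repr w]; unfold InN; simpa using hw
    have hk := key hD hbb hd (fun i => bb.repr w i) 0 h0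
    rw [← bb.sum_repr w]
    apply Submodule.sum_mem
    intro i _
    by_cases hai : bb.repr w i = 0
    · rw [hai, zero_smul]; exact Submodule.zero_mem _
    · have h1 := (inN_smul_basis hD hd hai i 0).1 (hk i)
      have hx := hD.x_ne_zero
      have hv : v (bb.repr w i * x ^ (-d i)) ≤ 1 := by
        have hvq : v (bb.repr w i) ≠ 0 := (Valuation.ne_zero_iff v).2 hai
        rw [map_mul, hD.v_zpow, ← exp_log hvq, ← exp_add, ← exp_zero, exp_le_exp]
        omega
      obtain ⟨o, ho⟩ := (hD.mem_O _).2 hv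
      have e1 : bb.repr w i • bb i = o • (x ^ d i • bb i) := by
        rw [← algebraMap_smul Q o, ho, smul_smul, mul_assoc, ← zpow_add₀ hx]
        simp
      rw [e1]
      exact Submodule.smul_mem _ _ (subset_span ⟨i, rfl⟩)
  · rw [span_le]
    rintro _ ⟨i, rfl⟩
    exact (hd i (d i)).2 le_rfl

theorem M_eq (hbb : IsGreedyBasis M N x bb) {d : Fin n → ℤ}
    (hd : ∀ i k, InN N x k (bb i) ↔ k ≤ d i) :
    M = span R (Set.range bb) := by
  classical
  apply le_antisymm
  · intro m hm
    choose r hr using fun i => hD.approx (bb.repr m i)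
    set s : Fin n → Q := fun i => bb.repr m i - algebraMap R Q (r i) with hs
    set m' : V := m - ∑ i, r i • bb i with hm'
    have hm'M : m' ∈ M :=
      M.sub_mem hm (M.sum_mem fun i _ => M.smul_mem _ (hbb.mem i))
    have hm'sum : m' = ∑ i, s i • bb i := by
      rw [hm']
      conv_lhs => rw [← bb.sum_repr m]
      rw [← Finset.sum_sub_distrib]
      apply Finset.sum_congr rfl
      intro i _
      rw [hs, sub_smul, algebraMap_smul]
    have hzero : m' = 0 := by
      by_contra hne
      set S : Finset (Fin n) := Finset.univ.filter (fun i => s i ≠ 0) with hS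
      have hSne : S.Nonempty := by
        by_contra hempty
        rw [Finset.not_nonempty_iff_eq_empty] at hempty
        apply hne
        rw [hm'sum]
        apply Finset.sum_eq_zero
        intro i _
        have : i ∉ S := by rw [hempty]; exact Finset.notMem_empty i
        have : s i = 0 := by
          by_contra h; exact this (by simp [hS, h])
        rw [this, zero_smul]
      set k := S.max' hSne with hk
      have hkS : k ∈ S := Finset.max'_mem S hSne
      have hsk : s k ≠ 0 := (Finset.mem_filter.1 hkS).2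
      have hW : m' ∉ span Q (bb '' {l | l < k}) := by
        intro hmem
        rw [bb.mem_span_image] at hmem
        have hrepr : bb.repr m' k = s k := by
          rw [hm'sum, bb.repr_sum_self]
        have : k ∈ ((bb.repr m').support : Set (Fin n)) := by
          simp only [Finset.mem_coe, Finsupp.mem_support_iff]
          rw [hrepr]; exact hsk
        exact absurd (show k < k from hmem this) (lt_irrefl k)
      have hN : InN N x (d k + 1) m' := by
        rw [hm'sum]
        apply InN.sum hD
        intro i _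
        by_cases hsi : s i = 0
        · rw [hsi, zero_smul]; exact InN.zero hD _
        · rw [inN_smul_basis hD hd hsi]
          have h1 := log_lt_zero_of_lt_one hD hsi (hr i)
          have hiS : i ∈ S := by simp [hS, hsi]
          have h2 : d k ≤ d i := level_antitone hD hbb hd (Finset.le_max' S i hiS)
          omega
      have := hbb.max k m' hm'M hW (d k + 1) hN
      rw [hd] at this
      omega
    have : m = ∑ i, r i • bb i := by
      rw [← sub_eq_zero]; exact hzero
    rw [this]
    exact Submodule.sum_mem _ fun i _ => Submodule.smul_mem _ _ (subset_span ⟨i, rfl⟩)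
  · rw [span_le]
    rintro _ ⟨i, rfl⟩
    exact hbb.mem i

/-- **Dedekind–Weber reduction** (Birkhoff–Grothendieck for `ℙ¹` in lattice form): an `R`-lattice
`M` and an `O`-lattice `N` in a finite-dimensional `Q`-vector space have a common basis up to
powers of `x`. -/
theorem exists_common_basis (hMfg : M.FG) (hNfg : N.FG) (hMspan : span Q (M : Set V) = ⊤)
    (hNspan : span Q (N : Set V) = ⊤) :
    ∃ (bb : Basis (Fin (finrank Q V)) Q V) (d : Fin (finrank Q V) → ℤ),
      Antitone d ∧ M = span R (Set.range bb) ∧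
        N = span O (Set.range fun i => x ^ d i • bb i) := by
  obtain ⟨bb, hbb⟩ := exists_greedyBasis hD hMfg hNfg hMspan hNspan
  choose d hd using exists_level hD hMfg hNfg hNspan hbb
  exact ⟨bb, d, fun i j hij => level_antitone hD hbb hd hij, M_eq hD hbb hd, N_eq hD hbb hd⟩

end Main

end Fermat.Agent.Lib.LatticePair.DedekindWeber
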