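import Fermat.Agent.Lib.LatticePair.DedekindWeber

set_option autoImplicit false

namespace Fermat.Agent.Lib.LatticePair.DedekindWeber

open WithZero Polynomial RatFunc

variable (K : Type*) [Field K] [DecidableEq (RatFunc K)]

theorem inftyValuation_algebraMap_polynomial {p : K[X]} (hp : p ≠ 0) :
    inftyValuation K (algebraMap K[X] (RatFunc K) p) = exp (p.natDegree : ℤ) := by
  rw [inftyValuation_apply]; exact inftyValuation.polynomial K hp

/-- `K[X] ⊆ K(X)` with the place at infinity is an `InftyDatum`. -/
theorem inftyDatum_ratFunc :
    InftyDatum K[X] (inftyValuation K).valuationSubring (inftyValuation K)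
      (RatFunc.X : RatFunc K) where
  vx := inftyValuation.X K
  mem_O q := by
    rw [← Valuation.mem_valuationSubring_iff]
    constructor
    · rintro ⟨o, rfl⟩; exact o.2
    · intro h; exact ⟨⟨q, h⟩, rfl⟩
  one_le r hr := by
    have hr0 : r ≠ 0 := by rintro rfl; simp at hr
    rw [inftyValuation_algebraMap_polynomial K hr0, ← exp_zero, exp_le_exp]
    exact Int.natCast_nonneg _
  approx q := by
    have hd : q.denom ≠ 0 := q.denom_ne_zero
    have hd' : algebraMap K[X] (RatFunc K) q.denom ≠ 0 := by
      simpa using hd
    refine ⟨q.num / q.denom, ?_⟩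
    have hq : q - algebraMap K[X] (RatFunc K) (q.num / q.denom) =
        algebraMap K[X] (RatFunc K) (q.num % q.denom) / algebraMap K[X] (RatFunc K) q.denom := by
      rw [eq_div_iff hd']
      have h1 : q * algebraMap K[X] (RatFunc K) q.denom = algebraMap K[X] (RatFunc K) q.num :=
        ((div_eq_iff hd').1 (RatFunc.num_div_denom q)).symm
      rw [sub_mul, h1, ← map_mul, ← map_sub]
      congr 1
      have := EuclideanDomain.div_add_mod q.num q.denom
      linear_combination (-1 : K[X]) * this
    rw [hq]
    by_cases hm : q.num % q.denom = 0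
    · rw [hm]; simp
    · rw [map_div₀, inftyValuation_algebraMap_polynomial K hm,
        inftyValuation_algebraMap_polynomial K hd, ← exp_sub, ← exp_zero, exp_lt_exp]
      have h1 : (q.num % q.denom).degree < q.denom.degree := Polynomial.degree_mod_lt _ hd
      have h2 : (q.num % q.denom).natDegree < q.denom.natDegree :=
        Polynomial.natDegree_lt_natDegree hm h1
      omega
  frac q := by
    have hd' : algebraMap K[X] (RatFunc K) q.denom ≠ 0 := by
      simpa using q.denom_ne_zero
    exact ⟨q.denom, q.num, hd', ((div_eq_iff hd').1 (RatFunc.num_div_denom q)).symm⟩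


/-- Dedekind–Weber reduction for `K[X]`-lattices and lattices at infinity in a finite-dimensional
`K(X)`-vector space. -/
theorem exists_common_basis_ratFunc {V : Type*} [AddCommGroup V] [Module (RatFunc K) V]
    [Module K[X] V] [IsScalarTower K[X] (RatFunc K) V] [FiniteDimensional (RatFunc K) V]
    (M : Submodule K[X] V) (N : Submodule (inftyValuation K).valuationSubring V)
    (hMfg : M.FG) (hNfg : N.FG) (hMspan : Submodule.span (RatFunc K) (M : Set V) = ⊤)
    (hNspan : Submodule.span (RatFunc K) (N : Set V) = ⊤) :
    ∃ (bb : Module.Basis (Fin (Module.finrank (RatFunc K) V)) (RatFunc K) V)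
      (d : Fin (Module.finrank (RatFunc K) V) → ℤ),
      Antitone d ∧ M = Submodule.span K[X] (Set.range bb) ∧
        N = Submodule.span (inftyValuation K).valuationSubring
          (Set.range fun i => (RatFunc.X : RatFunc K) ^ d i • bb i) :=
  exists_common_basis (inftyDatum_ratFunc K) hMfg hNfg hMspan hNspan

end Fermat.Agent.Lib.LatticePair.DedekindWeber
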