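import Fermat.Agent.Lib.LatticePair.Basic

/-!
# The ultrametric norm attached to a basis (lattice at infinity)
-/

set_option autoImplicit false

open WithZero Module

namespace Fermat.Agent.Lib.LatticePair

namespace P1Datum

variable {K Q : Type*} [Field K] [Field Q] [Algebra K Q] (D : P1Datum K Q)
variable {V : Type*} [AddCommGroup V] [Module Q V]
variable {ι : Type*} [Fintype ι]

/-- The sup norm of the coordinates in the basis `w`. -/
noncomputable def nrm (w : Basis ι Q V) (u : V) : WithZero (Multiplicative ℤ) :=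
  Finset.univ.sup fun i => D.v (w.repr u i)

variable (w : Basis ι Q V)

theorem nrm_le_iff {u : V} {y : WithZero (Multiplicative ℤ)} :
    D.nrm w u ≤ y ↔ ∀ i, D.v (w.repr u i) ≤ y := by
  unfold nrm
  rw [Finset.sup_le_iff]
  simp

theorem v_repr_le_nrm (u : V) (i : ι) : D.v (w.repr u i) ≤ D.nrm w u :=
  (D.nrm_le_iff w).mp le_rfl i

theorem nrm_lt_iff {u : V} {y : WithZero (Multiplicative ℤ)} (hy : 0 < y) :
    D.nrm w u < y ↔ ∀ i, D.v (w.repr u i) < y := by
  unfold nrm
  rw [Finset.sup_lt_iff (by simpa using hy)]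
  simp

@[simp]
theorem nrm_zero : D.nrm w (0 : V) = 0 := by
  apply le_antisymm _ zero_le
  rw [nrm_le_iff]
  intro i
  simp

theorem nrm_eq_zero {u : V} : D.nrm w u = 0 ↔ u = 0 := by
  constructor
  · intro h
    apply w.repr.injective
    ext i
    have := D.v_repr_le_nrm w u i
    rw [h] at this
    have h0 : D.v (w.repr u i) = 0 := le_antisymm this zero_le
    simpa using h0
  · rintro rfl
    exact D.nrm_zero w

theorem nrm_add_le (u u' : V) : D.nrm w (u + u') ≤ max (D.nrm w u) (D.nrm w u') := by
  rw [nrm_le_iff]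
  intro i
  rw [map_add, Finsupp.add_apply]
  exact (D.v.map_add _ _).trans
    (max_le_max (D.v_repr_le_nrm w u i) (D.v_repr_le_nrm w u' i))

theorem nrm_smul (q : Q) (u : V) : D.nrm w (q • u) = D.v q * D.nrm w u := by
  unfold nrm
  have hmono : Monotone fun y : WithZero (Multiplicative ℤ) => D.v q * y :=
    fun a b hab => mul_le_mul_right hab _
  rw [Finset.apply_sup_eq_sup_comp_of_linearOrder (fun y => D.v q * y) hmono (by simp)]
  congr 1
  ext i
  simp [map_smul, Finsupp.smul_apply, smul_eq_mul, map_mul]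

theorem nrm_neg (u : V) : D.nrm w (-u) = D.nrm w u := by
  have : -u = (-1 : Q) • u := by simp
  rw [this, nrm_smul]
  simp

theorem nrm_sub_le (u u' : V) : D.nrm w (u - u') ≤ max (D.nrm w u) (D.nrm w u') := by
  rw [sub_eq_add_neg]
  exact (D.nrm_add_le w u (-u')).trans (by rw [nrm_neg])

theorem nrm_sum_le {α : Type*} (s : Finset α) (f : α → V) {y : WithZero (Multiplicative ℤ)}
    (h : ∀ a ∈ s, D.nrm w (f a) ≤ y) : D.nrm w (∑ a ∈ s, f a) ≤ y := by
  classical
  induction s using Finset.induction_on with
  | empty => simp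
  | insert a s ha ih =>
    rw [Finset.sum_insert ha]
    refine (D.nrm_add_le w _ _).trans (max_le (h a (Finset.mem_insert_self a s)) ?_)
    exact ih fun b hb => h b (Finset.mem_insert_of_mem hb)

theorem nrm_sum_lt {α : Type*} (s : Finset α) (f : α → V) {y : WithZero (Multiplicative ℤ)}
    (hy : 0 < y) (h : ∀ a ∈ s, D.nrm w (f a) < y) : D.nrm w (∑ a ∈ s, f a) < y := by
  classical
  induction s using Finset.induction_on with
  | empty => simpa using hy
  | insert a s ha ih =>
    rw [Finset.sum_insert ha]
    refine (D.nrm_add_le w _ _).trans_lt (max_lt (h a (Finset.mem_insert_self a s)) ?_)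
    exact ih fun b hb => h b (Finset.mem_insert_of_mem hb)

/-- The ultrametric inequality is an equality when the norms differ. -/
theorem nrm_add_eq_of_lt {u u' : V} (h : D.nrm w u' < D.nrm w u) :
    D.nrm w (u + u') = D.nrm w u := by
  apply le_antisymm
  · exact (D.nrm_add_le w u u').trans (max_le le_rfl h.le)
  · by_contra hlt
    have hlt' : D.nrm w (u + u') < D.nrm w u := not_le.mp hlt
    have : u = (u + u') - u' := by abel
    have h2 : D.nrm w u ≤ max (D.nrm w (u + u')) (D.nrm w u') := by
      conv_lhs => rw [this]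
      exact D.nrm_sub_le w _ _
    exact absurd h2 (not_le.mpr (max_lt hlt' h))

variable [DecidableEq ι]

theorem nrm_basis (i : ι) : D.nrm w (w i) = 1 := by
  apply le_antisymm
  · rw [nrm_le_iff]
    intro j
    rw [w.repr_self, Finsupp.single_apply]
    split_ifs <;> simp
  · have := D.v_repr_le_nrm w (w i) i
    rwa [w.repr_self, Finsupp.single_eq_same, map_one] at this

omit [DecidableEq ι] in
/-- Membership in the `Rinf`-span of the basis is the unit ball. -/
theorem mem_span_Rinf_iff {u : V} :
    u ∈ Submodule.span D.Rinf (Set.range w) ↔ D.nrm w u ≤ 1 := by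
  rw [Basis.mem_span_iff_repr_mem D.Rinf w u, nrm_le_iff]
  refine forall_congr' fun i => ?_
  constructor
  · rintro ⟨r, hr⟩
    rw [← hr]
    exact r.2
  · intro h
    exact ⟨⟨_, h⟩, rfl⟩

end P1Datum

end Fermat.Agent.Lib.LatticePair
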