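import Fermat.Agent.Lib.LatticePair.Basic
import Fermat.Agent.Lib.LatticePair.Additivity

/-!
# Rank one computations: polynomials of bounded degree and the cokernel
-/

set_option autoImplicit false

open WithZero Module

namespace Fermat.Agent.Lib.LatticePair

namespace P1Datum

variable {K Q : Type*} [Field K] [Field Q] [Algebra K Q] (D : P1Datum K Q)

/-- The quotient `levelInf d / levelInf (d - 1)` is one dimensional. -/
noncomputable def levelQuotEquiv (d : ℤ) :
    (D.levelInf d ⧸ (D.levelInf (d - 1)).comap (D.levelInf d).subtype) ≃ₗ[K] K := by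
  have hsurj : Function.Surjective (D.resAt d) := by
    intro c
    refine ⟨c • ⟨D.x ^ d, D.x_zpow_mem_levelInf d⟩, ?_⟩
    rw [map_smul, D.resAt_x_zpow, smul_eq_mul, mul_one]
  have hker : LinearMap.ker (D.resAt d) = (D.levelInf (d - 1)).comap (D.levelInf d).subtype := by
    ext q
    rw [LinearMap.mem_ker, D.resAt_eq_zero_iff, Submodule.mem_comap, Submodule.subtype_apply]
  exact (Submodule.quotEquivOfEq _ _ hker.symm).trans
    (LinearMap.quotKerEquivOfSurjective (D.resAt d) hsurj)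

theorem R_sup_levelInf_eq_top {d : ℤ} (hd : -1 ≤ d) :
    Subalgebra.toSubmodule D.R ⊔ D.levelInf d = ⊤ := by
  rw [eq_top_iff]
  intro q _
  obtain ⟨r, hr, hlt⟩ := D.exists_polyPart q
  have : q = r + (q - r) := by ring
  rw [this]
  refine Submodule.add_mem_sup hr ?_
  rw [mem_levelInf]
  have h1 : D.v (q - r) ≤ exp (-1 : ℤ) := by
    have := lt_exp_iff_le_exp_pred.mp (by rwa [exp_zero] : D.v (q - r) < exp (0 : ℤ))
    simpa using this
  exact h1.trans (exp_le_exp.mpr hd)

theorem levelFin_eq_inf (d : ℤ) :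
    D.levelFin d = Subalgebra.toSubmodule D.R ⊓ D.levelInf d := rfl

/-- Main rank one computation. -/
theorem rankOne (d : ℤ) :
    Module.Finite K (D.levelFin d) ∧
    Module.Finite K (Q ⧸ (Subalgebra.toSubmodule D.R ⊔ D.levelInf d)) ∧
    finrank K (D.levelFin d) = (d + 1).toNat ∧
    finrank K (Q ⧸ (Subalgebra.toSubmodule D.R ⊔ D.levelInf d)) = (-d - 1).toNat := by
  -- facts valid for `d < 0` and `-1 ≤ d`
  have hneg : ∀ e : ℤ, e < 0 → Module.Finite K (D.levelFin e) ∧ finrank K (D.levelFin e) = 0 := by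
    intro e he
    rw [D.levelFin_eq_bot he]
    exact ⟨inferInstance, finrank_bot K Q⟩
  have hpos : ∀ e : ℤ, -1 ≤ e →
      Module.Finite K (Q ⧸ (Subalgebra.toSubmodule D.R ⊔ D.levelInf e)) ∧
      finrank K (Q ⧸ (Subalgebra.toSubmodule D.R ⊔ D.levelInf e)) = 0 := by
    intro e he
    rw [D.R_sup_levelInf_eq_top he]
    have : Subsingleton (Q ⧸ (⊤ : Submodule K Q)) := Submodule.Quotient.subsingleton_iff.mpr rfl
    exact ⟨inferInstance, finrank_zero_of_subsingleton⟩
  -- the inductive step from additivity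
  have step : ∀ e : ℤ, Module.Finite K (D.levelFin (e - 1)) →
      Module.Finite K (Q ⧸ (Subalgebra.toSubmodule D.R ⊔ D.levelInf e)) →
      Module.Finite K (D.levelFin e) ∧
      Module.Finite K (Q ⧸ (Subalgebra.toSubmodule D.R ⊔ D.levelInf (e - 1))) ∧
      (finrank K (D.levelFin e) : ℤ) -
          finrank K (Q ⧸ (Subalgebra.toSubmodule D.R ⊔ D.levelInf e)) =
        (finrank K (D.levelFin (e - 1)) : ℤ) -
          finrank K (Q ⧸ (Subalgebra.toSubmodule D.R ⊔ D.levelInf (e - 1))) + 1 := by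
    intro e h1 h2
    have hW : Module.Finite K
        (D.levelInf e ⧸ (D.levelInf (e - 1)).comap (D.levelInf e).subtype) :=
      Module.Finite.equiv (D.levelQuotEquiv e).symm
    have h1' : Module.Finite K ↥(Subalgebra.toSubmodule D.R ⊓ D.levelInf (e - 1)) := h1
    obtain ⟨a, b, c⟩ := additivity (Subalgebra.toSubmodule D.R) (D.levelInf (e - 1))
      (D.levelInf e) (D.levelInf_mono (by omega))
    refine ⟨a, b, ?_⟩
    have hW1 : finrank K (D.levelInf e ⧸ (D.levelInf (e - 1)).comap (D.levelInf e).subtype) = 1 := by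
      rw [(D.levelQuotEquiv e).finrank_eq, finrank_self]
    rw [hW1] at c
    exact_mod_cast c
  -- upward induction
  have up : ∀ m : ℕ, Module.Finite K (D.levelFin (-1 + m)) ∧
      finrank K (D.levelFin (-1 + m)) = m := by
    intro m
    induction m with
    | zero =>
      obtain ⟨a, b⟩ := hneg (-1) (by omega)
      simpa using And.intro a b
    | succ m ih =>
      obtain ⟨ih1, ih2⟩ := ih
      have e1 : (-1 + ((m + 1 : ℕ) : ℤ)) - 1 = -1 + (m : ℤ) := by push_cast; ring
      obtain ⟨p1, p2⟩ := hpos (-1 + ((m + 1 : ℕ) : ℤ)) (by omega)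
      obtain ⟨q1, q2⟩ := hpos (-1 + (m : ℤ)) (by omega)
      obtain ⟨a, _, c⟩ := step (-1 + ((m + 1 : ℕ) : ℤ)) (by rw [e1]; exact ih1) p1
      refine ⟨a, ?_⟩
      rw [e1, p2, q2, ih2] at c
      have : (finrank K (D.levelFin (-1 + ((m + 1 : ℕ) : ℤ))) : ℤ) = (m : ℤ) + 1 := by
        simpa using c
      exact_mod_cast this
  -- downward induction
  have down : ∀ m : ℕ,
      Module.Finite K (Q ⧸ (Subalgebra.toSubmodule D.R ⊔ D.levelInf (-1 - m))) ∧
      finrank K (Q ⧸ (Subalgebra.toSubmodule D.R ⊔ D.levelInf (-1 - m))) = m := by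
    intro m
    induction m with
    | zero =>
      obtain ⟨a, b⟩ := hpos (-1) (by omega)
      simpa using And.intro a b
    | succ m ih =>
      obtain ⟨ih1, ih2⟩ := ih
      have e1 : (-1 - ((m + 1 : ℕ) : ℤ)) = (-1 - (m : ℤ)) - 1 := by push_cast; ring
      obtain ⟨p1, p2⟩ := hneg (-1 - (m : ℤ)) (by omega)
      obtain ⟨q1, q2⟩ := hneg ((-1 - (m : ℤ)) - 1) (by omega)
      obtain ⟨_, b, c⟩ := step (-1 - (m : ℤ)) q1 ih1
      rw [e1]
      refine ⟨b, ?_⟩
      rw [p2, q2, ih2] at c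
      have : (finrank K (Q ⧸ (Subalgebra.toSubmodule D.R ⊔ D.levelInf (-1 - (m : ℤ) - 1))) : ℤ) =
          (m : ℤ) + 1 := by
        have := c
        push_cast at this
        linarith
      exact_mod_cast this
  -- conclusion
  rcases le_total (-1) d with hd | hd
  · obtain ⟨m, hm⟩ := Int.eq_ofNat_of_zero_le (by omega : 0 ≤ d + 1)
    have hd' : d = -1 + (m : ℤ) := by omega
    obtain ⟨a1, a2⟩ := up m
    obtain ⟨b1, b2⟩ := hpos d hd
    rw [← hd'] at a1 a2
    refine ⟨a1, b1, ?_, ?_⟩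
    · rw [a2, hm]; simp
    · rw [b2]; omega
  · obtain ⟨m, hm⟩ := Int.eq_ofNat_of_zero_le (by omega : 0 ≤ -1 - d)
    have hd' : d = -1 - (m : ℤ) := by omega
    obtain ⟨a1, a2⟩ := down m
    rw [← hd'] at a1 a2
    rcases eq_or_lt_of_le hd with h | h
    · subst h
      obtain ⟨c1, c2⟩ := hneg (-1) (by omega)
      refine ⟨c1, a1, ?_, ?_⟩
      · rw [c2]; simp
      · rw [a2]; omega
    · obtain ⟨b1, b2⟩ := hneg d (by omega)
      refine ⟨b1, a1, ?_, ?_⟩
      · rw [b2]; omega
      · rw [a2]; omega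

end P1Datum

end Fermat.Agent.Lib.LatticePair
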