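import Fermat.Agent.Lib.LatticePair.Norm

/-!
# Reduced bases (Dedekind--Weber / Birkhoff--Grothendieck normal form)
-/

set_option autoImplicit false

open WithZero Module

namespace Fermat.Agent.Lib.LatticePair

namespace P1Datum

variable {K Q : Type*} [Field K] [Field Q] [Algebra K Q] (D : P1Datum K Q)
variable {V : Type*} [AddCommGroup V] [Module Q V]
variable {ι : Type*} [Fintype ι] [DecidableEq ι]

/-! ### Orthonormal families -/

/-- A family of vectors is orthonormal for the norm if all nonzero combinations with constant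
coefficients have norm one. -/
def IsOrthonormal (w : Basis ι Q V) (u : ι → V) : Prop :=
  ∀ c : ι → K, c ≠ 0 → D.nrm w (∑ i, algebraMap K Q (c i) • u i) = 1

variable (w : Basis ι Q V)

theorem IsOrthonormal.nrm_eq_one {u : ι → V} (h : D.IsOrthonormal w u) (i : ι) :
    D.nrm w (u i) = 1 := by
  have := h (Pi.single i 1) (by
    intro h0
    have := congrFun h0 i
    simp at this)
  rw [Finset.sum_eq_single i] at this
  · simpa using this
  · intro j _ hji
    simp [Pi.single_eq_of_ne hji]
  · intro hi
    exact absurd (Finset.mem_univ i) hi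

/-- Norm formula for an orthonormal family. -/
theorem IsOrthonormal.nrm_sum {u : ι → V} (h : D.IsOrthonormal w u) (q : ι → Q) :
    D.nrm w (∑ i, q i • u i) = Finset.univ.sup fun i => D.v (q i) := by
  set y := Finset.univ.sup fun i => D.v (q i) with hy
  have hle : D.nrm w (∑ i, q i • u i) ≤ y := by
    apply D.nrm_sum_le
    intro i _
    rw [D.nrm_smul, h.nrm_eq_one, mul_one]
    exact Finset.le_sup (f := fun i => D.v (q i)) (Finset.mem_univ i)
  rcases eq_or_ne y 0 with hy0 | hy0
  · rw [hy0] at hle ⊢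
    exact le_antisymm hle zero_le
  -- normalise
  obtain ⟨i0, -, hi0⟩ : ∃ i0 ∈ (Finset.univ : Finset ι), y = D.v (q i0) := by
    rcases isEmpty_or_nonempty ι with he | hne
    · exfalso
      apply hy0
      rw [hy, Finset.univ_eq_empty, Finset.sup_empty]
      rfl
    · exact Finset.exists_mem_eq_sup _ Finset.univ_nonempty _
  set k : ℤ := log y with hk
  have hyk : y = exp k := (exp_log hy0).symm
  set q' : ι → Q := fun i => D.x ^ (-k) * q i with hq'
  have hq'le : ∀ i, D.v (q' i) ≤ 1 := by
    intro i
    rw [hq', map_mul, D.v_x_zpow, exp_neg, inv_mul_le_iff₀ exp_pos, mul_one, ← hyk]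
    exact Finset.le_sup (f := fun i => D.v (q i)) (Finset.mem_univ i)
  have hq'i0 : D.v (q' i0) = 1 := by
    rw [hq', map_mul, D.v_x_zpow, ← hi0, hyk, ← exp_add, neg_add_cancel, exp_zero]
  set c : ι → K := fun i => D.res (q' i) with hc
  have hc0 : c ≠ 0 := by
    intro h0
    have h1 : D.res (q' i0) = 0 := congrFun h0 i0
    rw [D.res_eq_zero_iff (hq'le i0), hq'i0] at h1
    exact lt_irrefl _ h1
  have hmain : D.nrm w (∑ i, q' i • u i) = 1 := by
    have hsplit : ∑ i, q' i • u i =
        ∑ i, algebraMap K Q (c i) • u i + ∑ i, (q' i - algebraMap K Q (c i)) • u i := by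
      rw [← Finset.sum_add_distrib]
      refine Finset.sum_congr rfl fun i _ => ?_
      rw [← add_smul]
      congr 1
      ring
    rw [hsplit, D.nrm_add_eq_of_lt w]
    · exact h c hc0
    · rw [h c hc0]
      apply D.nrm_sum_lt w _ _ zero_lt_one
      intro i _
      rw [D.nrm_smul, h.nrm_eq_one, mul_one]
      exact D.res_spec (hq'le i)
  have hscale : ∑ i, q i • u i = D.x ^ k • ∑ i, q' i • u i := by
    rw [Finset.smul_sum]
    refine Finset.sum_congr rfl fun i _ => ?_
    rw [smul_smul, hq', ← mul_assoc, ← zpow_add₀ D.x_ne_zero, add_neg_cancel, zpow_zero, one_mul]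
  rw [hscale, D.nrm_smul, hmain, mul_one, D.v_x_zpow, hyk]

/-! ### Lower bound for the norm on a lattice -/

omit [DecidableEq ι] in
theorem exists_lower_bound (b0 : Basis ι Q V) :
    ∃ L : ℤ, ∀ u ∈ Submodule.span D.R (Set.range b0), u ≠ 0 → exp L ≤ D.nrm w u := by
  set C : WithZero (Multiplicative ℤ) :=
    max 1 (Finset.univ.sup fun p : ι × ι => D.v (b0.repr (w p.2) p.1)) with hC
  have hC1 : 1 ≤ C := le_max_left _ _
  have hC0 : C ≠ 0 := (lt_of_lt_of_le zero_lt_one hC1).ne'
  refine ⟨-log C, fun u hu hu0 => ?_⟩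
  rw [exp_neg, exp_log hC0]
  -- some coordinate in `b0` is a nonzero element of `R`
  have hrepr := (Basis.mem_span_iff_repr_mem D.R b0 u).mp hu
  obtain ⟨i, hi⟩ : ∃ i, b0.repr u i ≠ 0 := by
    by_contra hall
    apply hu0
    apply b0.repr.injective
    ext i
    by_contra h
    exact hall ⟨i, by simpa using h⟩
  obtain ⟨r, hr⟩ := hrepr i
  have h1 : 1 ≤ D.v (b0.repr u i) := by
    apply D.one_le_v_of_mem_R _ hi
    rw [← hr]
    exact r.2
  have hexp : b0.repr u i = ∑ j, w.repr u j * b0.repr (w j) i := by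
    conv_lhs => rw [← w.sum_repr u]
    rw [map_sum, Finsupp.coe_finsetSum, Finset.sum_apply]
    refine Finset.sum_congr rfl fun j _ => ?_
    rw [map_smul, Finsupp.smul_apply, smul_eq_mul]
  have h2 : D.v (b0.repr u i) ≤ D.nrm w u * C := by
    rw [hexp]
    apply D.v.map_sum_le
    intro j _
    rw [map_mul]
    refine mul_le_mul' (D.v_repr_le_nrm w u j) ?_
    refine le_trans ?_ (le_max_right _ _)
    exact Finset.le_sup (f := fun p : ι × ι => D.v (b0.repr (w p.2) p.1))
      (Finset.mem_univ (i, j))
  rw [inv_le_iff_one_le_mul₀ (lt_of_lt_of_le zero_lt_one hC1)]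
  exact h1.trans h2

/-! ### The descent step -/

/-- The measure that decreases in the reduction algorithm. -/
noncomputable def mu (b : ι → V) : ℤ := ∑ i, log (D.nrm w (b i))

/-- The family rescaled to norm one. -/
noncomputable def unitVec (b : ι → V) (i : ι) : V := D.x ^ (-(log (D.nrm w (b i)))) • b i

omit [DecidableEq ι] in
theorem nrm_unitVec {b : ι → V} {i : ι} (hb : b i ≠ 0) : D.nrm w (D.unitVec w b i) = 1 := by
  have h0 : D.nrm w (b i) ≠ 0 := fun h => hb ((D.nrm_eq_zero w).mp h)
  rw [unitVec, D.nrm_smul, D.v_x_zpow, exp_neg, exp_log h0, inv_mul_cancel₀ h0]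

omit [DecidableEq ι] in
theorem smul_mem_span_R {s : Set V} {a : Q} (ha : a ∈ D.R) {u : V}
    (hu : u ∈ Submodule.span D.R s) : a • u ∈ Submodule.span D.R s :=
  Submodule.smul_mem _ (⟨a, ha⟩ : D.R) hu

theorem descent (b : ι → V) (hli : LinearIndependent Q b)
    (hno : ¬ D.IsOrthonormal w (D.unitVec w b)) :
    ∃ b' : ι → V, Submodule.span D.R (Set.range b') = Submodule.span D.R (Set.range b) ∧
      D.mu w b' < D.mu w b := by
  classical
  have hb0 : ∀ i, b i ≠ 0 := fun i => hli.ne_zero i
  unfold IsOrthonormal at hno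
  simp only [not_forall] at hno
  obtain ⟨c, hc0, hne⟩ := hno
  set e : ι → ℤ := fun i => log (D.nrm w (b i)) with he
  have hexp : ∀ i, D.nrm w (b i) = exp (e i) := by
    intro i
    have h0 : D.nrm w (b i) ≠ 0 := fun h => hb0 i ((D.nrm_eq_zero w).mp h)
    rw [he, exp_log h0]
  set t : V := ∑ i, algebraMap K Q (c i) • D.unitVec w b i with ht
  have ht_le : D.nrm w t ≤ 1 := by
    apply D.nrm_sum_le
    intro i _
    rw [D.nrm_smul, D.nrm_unitVec w (hb0 i), mul_one]
    exact D.v_algebraMap_le_one _
  have ht_lt : D.nrm w t < 1 := lt_of_le_of_ne ht_le hne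
  -- the index
  set S : Finset ι := Finset.univ.filter fun i => c i ≠ 0 with hS
  have hSne : S.Nonempty := by
    obtain ⟨i, hi⟩ := Function.ne_iff.mp hc0
    exact ⟨i, by simpa [hS] using hi⟩
  obtain ⟨i0, hi0S, hmax⟩ := Finset.exists_max_image S e hSne
  have hci0 : c i0 ≠ 0 := by simpa [hS] using hi0S
  set a : ι → Q := fun i => algebraMap K Q (c i) * D.x ^ (e i0 - e i) with ha
  set new : V := ∑ i, a i • b i with hnew
  have hnew_eq : new = D.x ^ (e i0) • t := by
    rw [hnew, ht, Finset.smul_sum]
    refine Finset.sum_congr rfl fun i _ => ?_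
    rw [unitVec, smul_smul, smul_smul]
    congr 1
    have h1 : D.x ^ (e i0 - e i) = D.x ^ (e i0) * D.x ^ (-(e i)) := by
      rw [← zpow_add₀ D.x_ne_zero, sub_eq_add_neg]
    show algebraMap K Q (c i) * D.x ^ (e i0 - e i) =
      D.x ^ e i0 * algebraMap K Q (c i) * D.x ^ (-(e i))
    rw [h1]
    ring
  have ha_mem : ∀ i, a i ∈ D.R := by
    intro i
    by_cases hci : c i = 0
    · simp [ha, hci]
    · have hiS : i ∈ S := by simpa [hS] using hci
      have hle : 0 ≤ e i0 - e i := sub_nonneg.mpr (hmax i hiS)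
      obtain ⟨n, hn⟩ := Int.eq_ofNat_of_zero_le hle
      simp only [ha]
      rw [hn, zpow_natCast]
      exact D.R.mul_mem (D.R.algebraMap_mem _) (D.x_pow_mem_R n)
  have ha_i0 : a i0 = algebraMap K Q (c i0) := by simp [ha]
  have ha_i0_ne : a i0 ≠ 0 := by
    rw [ha_i0]
    exact (map_ne_zero (algebraMap K Q)).mpr hci0
  have hnew0 : new ≠ 0 := by
    intro h
    have := Fintype.linearIndependent_iff.mp hli a h i0
    exact ha_i0_ne this
  have hnrm_new : D.nrm w new < exp (e i0) := by
    rw [hnew_eq, D.nrm_smul, D.v_x_zpow]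
    calc exp (e i0) * D.nrm w t < exp (e i0) * 1 := by
          exact mul_lt_mul_of_pos_left ht_lt exp_pos
      _ = exp (e i0) := mul_one _
  -- splitting off the `i0` term
  have hsplit : new = a i0 • b i0 + ∑ i ∈ Finset.univ.erase i0, a i • b i := by
    rw [hnew]
    exact (Finset.add_sum_erase _ (fun i => a i • b i) (Finset.mem_univ i0)).symm
  refine ⟨Function.update b i0 new, ?_, ?_⟩
  · apply le_antisymm
    · rw [Submodule.span_le]
      rintro _ ⟨i, rfl⟩
      by_cases hi : i = i0
      · subst hi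
        rw [Function.update_self]
        refine Submodule.sum_mem _ fun j _ => ?_
        exact D.smul_mem_span_R (ha_mem j) (Submodule.subset_span ⟨j, rfl⟩)
      · rw [Function.update_of_ne hi]
        exact Submodule.subset_span ⟨i, rfl⟩
    · rw [Submodule.span_le]
      rintro _ ⟨i, rfl⟩
      by_cases hi : i = i0
      · subst hi
        have hmem_new : new ∈ Submodule.span D.R (Set.range (Function.update b i new)) :=
          Submodule.subset_span ⟨i, by rw [Function.update_self]⟩
        have hmem_rest : ∑ j ∈ Finset.univ.erase i, a j • b j ∈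
            Submodule.span D.R (Set.range (Function.update b i new)) := by
          refine Submodule.sum_mem _ fun j hj => ?_
          have hji : j ≠ i := Finset.ne_of_mem_erase hj
          refine D.smul_mem_span_R (ha_mem j) (Submodule.subset_span ⟨j, ?_⟩)
          rw [Function.update_of_ne hji]
        have hbi : b i = algebraMap K Q (c i)⁻¹ • (new - ∑ j ∈ Finset.univ.erase i, a j • b j) := by
          rw [hsplit, add_sub_cancel_right, smul_smul, ha_i0, ← map_mul, inv_mul_cancel₀ hci0,
            map_one, one_smul]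
        rw [SetLike.mem_coe, hbi]
        exact D.smul_mem_span_R (D.R.algebraMap_mem _) (Submodule.sub_mem _ hmem_new hmem_rest)
      · exact Submodule.subset_span ⟨i, by rw [Function.update_of_ne hi]⟩
  · unfold mu
    apply Finset.sum_lt_sum
    · intro i _
      by_cases hi : i = i0
      · subst hi
        rw [Function.update_self]
        have h0 : D.nrm w new ≠ 0 := fun h => hnew0 ((D.nrm_eq_zero w).mp h)
        exact ((log_lt_iff_lt_exp h0).mpr hnrm_new).le
      · rw [Function.update_of_ne hi]
    · refine ⟨i0, Finset.mem_univ _, ?_⟩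
      rw [Function.update_self]
      have h0 : D.nrm w new ≠ 0 := fun h => hnew0 ((D.nrm_eq_zero w).mp h)
      exact (log_lt_iff_lt_exp h0).mpr hnrm_new

/-! ### Existence of reduced bases -/

omit [DecidableEq ι] in
theorem linearIndependent_of_span_eq (b0 : Basis ι Q V) (b : ι → V)
    (h : Submodule.span D.R (Set.range b) = Submodule.span D.R (Set.range b0)) :
    LinearIndependent Q b ∧ ⊤ ≤ Submodule.span Q (Set.range b) := by
  have htop : ⊤ ≤ Submodule.span Q (Set.range b) := by
    rw [← b0.span_eq, Submodule.span_le]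
    rintro _ ⟨i, rfl⟩
    have h1 : b0 i ∈ Submodule.span D.R (Set.range b) := by
      rw [h]
      exact Submodule.subset_span ⟨i, rfl⟩
    exact Submodule.span_le_restrictScalars D.R Q (Set.range b) h1
  exact ⟨linearIndependent_of_top_le_span_of_card_eq_finrank htop
    (Module.finrank_eq_card_basis b0).symm, htop⟩

theorem exists_orthonormal (b0 : Basis ι Q V) :
    ∃ b : ι → V, Submodule.span D.R (Set.range b) = Submodule.span D.R (Set.range b0) ∧
      D.IsOrthonormal w (D.unitVec w b) := by
  obtain ⟨L, hL⟩ := D.exists_lower_bound w b0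
  have hbdd : ∃ B : ℤ, ∀ z : ℤ,
      (∃ b : ι → V, Submodule.span D.R (Set.range b) = Submodule.span D.R (Set.range b0) ∧
        D.mu w b = z) → B ≤ z := by
    refine ⟨∑ _i : ι, L, ?_⟩
    rintro z ⟨b, hb, rfl⟩
    unfold mu
    apply Finset.sum_le_sum
    intro i _
    have hli := (D.linearIndependent_of_span_eq b0 b hb).1
    have hbi0 : b i ≠ 0 := hli.ne_zero i
    have hmem : b i ∈ Submodule.span D.R (Set.range b0) := by
      rw [← hb]
      exact Submodule.subset_span ⟨i, rfl⟩
    have h0 : D.nrm w (b i) ≠ 0 := fun h => hbi0 ((D.nrm_eq_zero w).mp h)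
    exact (le_log_iff_exp_le h0).mpr (hL _ hmem hbi0)
  obtain ⟨lb, ⟨b, hb, hmu⟩, hmin⟩ := Int.exists_least_of_bdd hbdd ⟨D.mu w b0, b0, rfl, rfl⟩
  refine ⟨b, hb, ?_⟩
  by_contra hno
  obtain ⟨b', hb', hlt⟩ := D.descent w b (D.linearIndependent_of_span_eq b0 b hb).1 hno
  have := hmin (D.mu w b') ⟨b', hb'.trans hb, rfl⟩
  omega

/-- **Normal form of a lattice pair** (Dedekind--Weber, Birkhoff, Grothendieck): for two bases
`b0` (spanning the lattice over `R`) and `w` (spanning the lattice over `Rinf`) there are a basis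
`b` and integers `d` such that `b` spans the first lattice over `R` and `x ^ d i • b i` spans the
second lattice over `Rinf`. -/
theorem exists_normalForm (b0 : Basis ι Q V) :
    ∃ (b : Basis ι Q V) (d : ι → ℤ),
      Submodule.span D.R (Set.range b) = Submodule.span D.R (Set.range b0) ∧
      Submodule.span D.Rinf (Set.range fun i => D.x ^ (d i) • b i) =
        Submodule.span D.Rinf (Set.range w) := by
  obtain ⟨bf, hbf, hortho⟩ := D.exists_orthonormal w b0
  obtain ⟨hli, htop⟩ := D.linearIndependent_of_span_eq b0 bf hbf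
  set b : Basis ι Q V := basisOfTopLeSpanOfCardEqFinrank bf htop
    (Module.finrank_eq_card_basis b0).symm with hb
  have hbcoe : ⇑b = bf := coe_basisOfTopLeSpanOfCardEqFinrank _ _ _
  set d : ι → ℤ := fun i => -(log (D.nrm w (bf i))) with hd
  have hu : (fun i => D.x ^ (d i) • b i) = D.unitVec w bf := by
    funext i
    rw [hbcoe]
    rfl
  refine ⟨b, d, by rw [hbcoe]; exact hbf, ?_⟩
  rw [hu]
  apply le_antisymm
  · rw [Submodule.span_le]
    rintro _ ⟨i, rfl⟩
    rw [SetLike.mem_coe, D.mem_span_Rinf_iff, hortho.nrm_eq_one]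
  · intro u hu'
    rw [D.mem_span_Rinf_iff] at hu'
    -- coordinates of `u` in the rescaled basis
    set q : ι → Q := fun i => b.repr u i * D.x ^ (-(d i)) with hq
    have hsum : u = ∑ i, q i • D.unitVec w bf i := by
      conv_lhs => rw [← b.sum_repr u]
      refine Finset.sum_congr rfl fun i _ => ?_
      rw [← hu, smul_smul, hq]
      simp only
      rw [mul_assoc, ← zpow_add₀ D.x_ne_zero, neg_add_cancel, zpow_zero, mul_one]
    have hnorm := hortho.nrm_sum D w q
    rw [← hsum] at hnorm
    rw [hsum]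
    refine Submodule.sum_mem _ fun i _ => ?_
    have hqi : D.v (q i) ≤ 1 := by
      have : D.v (q i) ≤ Finset.univ.sup fun i => D.v (q i) :=
        Finset.le_sup (f := fun i => D.v (q i)) (Finset.mem_univ i)
      exact this.trans (hnorm ▸ hu')
    exact Submodule.smul_mem _ (⟨q i, hqi⟩ : D.Rinf) (Submodule.subset_span ⟨i, rfl⟩)

end P1Datum

end Fermat.Agent.Lib.LatticePair
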